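import Mathlib
import Fermat.Prelude.Def_FLTPrelim_ModularRep
import Fermat.Prelude.Def_WeierstrassCurve_Mlc1RowStatement

set_option autoImplicit false

namespace Fermat.Agent.S60.Wiring

open WeierstrassCurve

/-- A modular integral model is a modular curve over `ℚ` (identity change of variables). -/
theorem isModular_of_isModularModel (W : WeierstrassCurve ℤ) (h : W.IsModularModel) :
    (W.map (Int.castRingHom ℚ)).IsModular :=
  ⟨W, ⟨1, one_smul _ _⟩, h⟩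

theorem isModular_of_mlc1 (W : WeierstrassCurve ℤ)
    (h : Mlc1IsModularModelOfExactConductorLevel W) :
    (W.map (Int.castRingHom ℚ)).IsModular := by
  obtain ⟨N, hN, -, -, hmod⟩ := h
  exact isModular_of_isModularModel W ⟨N, hN, hmod⟩

/-- Transfer of a congruence of point counts mod `p` along an exact-conductor-level
modular curve `W'`: `W` is residually modular at `p` of the (squarefree) level of `W'`. -/
theorem isResiduallyModularOfLevel_of_congr {p : ℕ} (hp : p.Prime)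
    (W W' : WeierstrassCurve ℤ) {N : ℕ}
    (hbad : ∀ q : ℕ, q.Prime → (q ∣ N ↔ (q : ℤ) ∣ W'.Δ))
    (hmod : W'.IsModularModelOfLevel N)
    (hcong : ∀ ℓ : ℕ, ℓ.Prime → W.IsGoodPrimeFor ℓ → W'.IsGoodPrimeFor ℓ → ℓ ≠ p →
      (p : ℤ) ∣ (W'.apOfModel ℓ - W.apOfModel ℓ)) :
    W.IsResiduallyModularOfLevel p N := by
  obtain ⟨f, hf, hcoef⟩ := hmod
  obtain ⟨𝔪, h𝔪, hp𝔪⟩ := FLTPrelim.exists_maximalIdeal_natCast_prime_mem hp
  refine ⟨f, 𝔪, hf, h𝔪, hp𝔪, ?_⟩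
  intro ℓ hℓ hgood hℓN hℓp
  have hgood' : W'.IsGoodPrimeFor ℓ := fun hd => hℓN ((hbad ℓ hℓ).mpr hd)
  refine ⟨((W'.apOfModel ℓ : ℤ) : integralClosure ℤ ℂ), ?_, ?_⟩
  · rw [hcoef ℓ hℓ hgood' hℓN]
    simp
  · obtain ⟨k, hk⟩ := hcong ℓ hℓ hgood hgood' hℓp
    have : ((W'.apOfModel ℓ : ℤ) : integralClosure ℤ ℂ) - ((W.apOfModel ℓ : ℤ) : integralClosure ℤ ℂ)
        = (p : integralClosure ℤ ℂ) * ((k : ℤ) : integralClosure ℤ ℂ) := by
      rw [← Int.cast_sub, hk]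
      push_cast
      ring
    rw [this]
    exact Ideal.mul_mem_right _ _ hp𝔪

/-- Conditional wiring of S60 (semistable modularity) from:
`H51` (S51), `H52` (S52), `H59` (S59) and `HLT` = residual modularity at 3 at a level
not divisible by 9 and cube-free away from 3 (S50 plus the missing level-lowering at 3). -/
theorem result_of
    (H51 : ∀ W : WeierstrassCurve ℤ, W.Δ ≠ 0 → W.IsSemistableModel →
      W.ModRepIsIrreducible 3 ∨ W.ModRepIsIrreducible 5)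
    (H52 : ∀ W : WeierstrassCurve ℤ, W.Δ ≠ 0 → W.IsSemistableModel → W.ModRepIsIrreducible 5 →
      ∃ W' : WeierstrassCurve ℤ, W'.Δ ≠ 0 ∧ W'.IsSemistableModel ∧ W'.ModRepIsIrreducible 3 ∧
        ∀ ℓ : ℕ, ℓ.Prime → W.IsGoodPrimeFor ℓ → W'.IsGoodPrimeFor ℓ → ℓ ≠ 5 →
          (5 : ℤ) ∣ (W'.apOfModel ℓ - W.apOfModel ℓ))
    (HLT : ∀ W : WeierstrassCurve ℤ, W.Δ ≠ 0 → W.IsSemistableModel → W.ModRepIsIrreducible 3 →
      ∃ M : ℕ, 0 < M ∧ W.IsResiduallyModularOfLevel 3 M ∧ ¬ 3 ^ 2 ∣ M ∧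
        ∀ q : ℕ, q.Prime → q ≠ 3 → ¬ q ^ 3 ∣ M)
    (H59 : ∀ (p : ℕ), p = 3 ∨ p = 5 → ∀ (W : WeierstrassCurve ℤ), W.Δ ≠ 0 →
      W.IsSemistableModel → W.ModRepIsIrreducible p → ∀ (M₀ : ℕ) [NeZero M₀],
      W.IsResiduallyModularOfLevel p M₀ → ¬ p ^ 2 ∣ M₀ →
      (∀ q : ℕ, q.Prime → q ≠ p → ¬ q ^ 3 ∣ M₀) →
      Mlc1IsModularModelOfExactConductorLevel W)
    (W : WeierstrassCurve ℤ) (hΔ : W.Δ ≠ 0) (hW : W.IsSemistableModel) :
    (W.map (Int.castRingHom ℚ)).IsModular := by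
  -- the 3-irreducible branch
  have key3 : ∀ V : WeierstrassCurve ℤ, V.Δ ≠ 0 → V.IsSemistableModel →
      V.ModRepIsIrreducible 3 → Mlc1IsModularModelOfExactConductorLevel V := by
    intro V hVΔ hV h3
    obtain ⟨M, hM, hres, h9, hcube⟩ := HLT V hVΔ hV h3
    have : NeZero M := ⟨hM.ne'⟩
    exact H59 3 (Or.inl rfl) V hVΔ hV h3 M hres h9 hcube
  rcases H51 W hΔ hW with h3 | h5
  · exact isModular_of_mlc1 W (key3 W hΔ hW h3)
  · obtain ⟨W', hΔ', hW', h3', hcong⟩ := H52 W hΔ hW h5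
    obtain ⟨N, hN, hsq, hbad, hmod⟩ := key3 W' hΔ' hW' h3'
    have hres : W.IsResiduallyModularOfLevel 5 N :=
      isResiduallyModularOfLevel_of_congr (p := 5) (by norm_num) W W' hbad hmod
        (by simpa using hcong)
    have : NeZero N := ⟨hN.ne'⟩
    have h25 : ¬ 5 ^ 2 ∣ N := by
      intro hd
      have h5u : IsUnit (5 : ℕ) := hsq 5 (by simpa [sq] using hd)
      simp at h5u
    have hcube : ∀ q : ℕ, q.Prime → q ≠ 5 → ¬ q ^ 3 ∣ N := by
      intro q hq _ hd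
      have hqq : q * q ∣ N := Dvd.dvd.trans ⟨q, by ring⟩ hd
      have hqu : IsUnit q := hsq q hqq
      exact hq.one_lt.ne' (Nat.isUnit_iff.mp hqu)
    exact isModular_of_mlc1 W (H59 5 (Or.inr rfl) W hΔ hW h5 N hres h25 hcube)

end Fermat.Agent.S60.Wiring
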